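import Mathlib
import Fermat.Agent.LT.T6.H438.HasseQ3

/-!
# Row LT, tower T6, leaf T6.00q.5 `LocMulC438` (helper439, OFF-MAIN)

Vocabulary: `Fermat/Agent/LT/T6/H438/HasseQ3.lean` (helper438@9c79cc886, sha256 7b061f61b47b31e2),
byte-identical copy.

`locMulC_h439 : LocMulC438` : the local norm conditions are stable under division by a global
norm.  The norm of `A ⊗_L M` over `A` sends `1 ⊗ y` to the image of `N_{M/L}(y)`
(`norm_one_tmul_h439`, valid for every finite free `L`-algebra `M` and every `L`-algebra `A`),
and the norm is multiplicative.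
-/

set_option autoImplicit false

open scoped TensorProduct

noncomputable section

namespace Fermat.Agent.LT.T6.H439

open Fermat.Agent.LT.T6.H438

/-- The norm commutes with base change on the elements `1 ⊗ y`. -/
theorem norm_one_tmul_h439 (L : Type*) [CommRing L] (A : Type*) [CommRing A] [Algebra L A]
    (M : Type*) [CommRing M] [Algebra L M] [Module.Free L M] [Module.Finite L M] (y : M) :
    Algebra.norm A ((1 : A) ⊗ₜ[L] y) = algebraMap L A (Algebra.norm L y) := by
  rw [Algebra.norm_apply, Algebra.norm_apply, ← Algebra.baseChange_lmul,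
    LinearMap.det_baseChange]

/-- Division of a local norm by a global norm: the abstract step. -/
theorem locNorm_div_h439 (L : Type*) [Field L] (A : Type*) [CommRing A] [Algebra L A]
    (M : Type*) [Field M] [Algebra L M] [FiniteDimensional L M] (x c : L) (y : M) (hy : y ≠ 0)
    (hx : x = c * Algebra.norm L y)
    (h : ∃ z : A ⊗[L] M, Algebra.norm A z = algebraMap L A x) :
    ∃ z : A ⊗[L] M, Algebra.norm A z = algebraMap L A c := by
  obtain ⟨z, hz⟩ := h
  have hN : Algebra.norm L y ≠ 0 := Algebra.norm_ne_zero_iff.mpr hy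
  have h1 : Algebra.norm L y * Algebra.norm L y⁻¹ = 1 := by
    rw [← map_mul, mul_inv_cancel₀ hy, map_one]
  refine ⟨z * ((1 : A) ⊗ₜ[L] y⁻¹), ?_⟩
  rw [map_mul, hz, norm_one_tmul_h439, ← map_mul, hx, mul_assoc, h1, mul_one]

/-- **T6.00q.5 `LocMulC438`.** -/
theorem locMulC_h439 : LocMulC438 := by
  intro L M _ _ _ _ _ _ x c y hy hx hfin hinf
  exact ⟨fun u => locNorm_div_h439 L (u.adicCompletion L) M x c y hy hx (hfin u),
    fun u => locNorm_div_h439 L u.Completion M x c y hy hx (hinf u)⟩

end Fermat.Agent.LT.T6.H439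

end
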