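import Mathlib
import Fermat.Agent.LT.T6.H277.OrbEllSpec
import Fermat.Agent.LT.H338.TreeCount

/-!
# Row LT, tower T6, leaf T6.13.2.7 `BallCountC` (helper439, OFF-MAIN)

Vocabulary: `Fermat/Agent/LT/T6/H277/OrbEllSpec.lean` (helper277@b9ce39e0d, sha256
7b0956b2baf7cad6), `LT/H338/TreeDist.lean`, `LT/H338/TreeCount.lean` (helper338), byte-identical
copies.

`ballCountC_h439 : H277.BallCountC` : the ball of radius `r` of a `(q+1)`-regular tree distance
has `ballCard q r = 1 + (q+1) ∑_{i<r} q^i` elements.  The spheres are `S 0 = {o}`,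
`S (i+1) = childF338 (S i)`.
-/

set_option autoImplicit false

noncomputable section

namespace Fermat.Agent.LT.T6.H439

open Fermat.Agent.LT.H338 Fermat.Agent.LT.T6.H60 Fermat.Agent.LT.T6.H277 Finset Classical

section Sphere

variable {V : Type} {d : V → V → ℕ} (hd : IsTreeDist338 d) (o : V)
  (q : ℕ) (hreg : ∀ v, {w | d v w = 1}.ncard = q + 1)

/-- The sphere of radius `i` around `o`, as a finset. -/
def sphere_h439 : ℕ → Finset V
  | 0 => {o}
  | (i + 1) => childF338 o q hreg (sphere_h439 i)

include hd in
theorem mem_sphere_h439 : ∀ (i : ℕ) (x : V), x ∈ sphere_h439 o q hreg i ↔ d o x = i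
  | 0, x => by
    rw [sphere_h439, mem_singleton, hd.eq_zero]
    exact eq_comm
  | (i + 1), x => by
    rw [sphere_h439, mem_childF338 hd, mem_sphere_h439 i]
    constructor
    · rintro ⟨h1, h2⟩
      have := par338_depth hd o h1
      omega
    · intro h
      have hox : o ≠ x := root_ne_of_depth338 hd o h
      refine ⟨hox, ?_⟩
      have := par338_depth hd o hox
      omega

include hd in
theorem card_sphere_succ_h439 (i : ℕ) :
    (sphere_h439 o q hreg (i + 1)).card = (q + 1) * q ^ i := by
  induction i with
  | zero =>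
    rw [sphere_h439, card_childF338 hd, sphere_h439, card_singleton, if_pos (mem_singleton_self o),
      pow_zero]
    ring
  | succ i ih =>
    have hnot : o ∉ sphere_h439 o q hreg (i + 1) := by
      rw [mem_sphere_h439 hd o q hreg, (hd.eq_zero o o).2 rfl]
      omega
    rw [sphere_h439, card_childF338 hd, if_neg hnot, ih]
    ring

include hd in
theorem card_sphere_h439 (i : ℕ) :
    (sphere_h439 o q hreg i).card = if i = 0 then 1 else (q + 1) * q ^ (i - 1) := by
  cases i with
  | zero => simp [sphere_h439]
  | succ i => rw [card_sphere_succ_h439 hd o q hreg i]; simp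

include hd in
theorem ball_eq_h439 (r : ℕ) :
    {x | d o x ≤ r} = ↑((range (r + 1)).biUnion (sphere_h439 o q hreg)) := by
  ext x
  rw [Set.mem_ofPred_eq, mem_coe, mem_biUnion]
  constructor
  · intro h
    exact ⟨d o x, mem_range.2 (by omega), (mem_sphere_h439 hd o q hreg _ x).2 rfl⟩
  · rintro ⟨i, hi, hx⟩
    rw [mem_range] at hi
    rw [mem_sphere_h439 hd o q hreg] at hx
    omega

include hd in
theorem card_ball_h439 (r : ℕ) :
    ((range (r + 1)).biUnion (sphere_h439 o q hreg)).card = ballCard q r := by
  rw [card_biUnion]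
  · rw [sum_range_succ', ballCard, mul_sum]
    simp only [sphere_h439, card_singleton]
    rw [add_comm]
    congr 1
    exact sum_congr rfl fun i _ => card_sphere_succ_h439 hd o q hreg i
  · intro i _ j _ hij
    rw [Function.onFun, Finset.disjoint_left]
    intro x hx hx'
    rw [mem_sphere_h439 hd o q hreg] at hx hx'
    exact hij (hx.symm.trans hx')

end Sphere

/-- **T6.13.2.7 `BallCountC`.** -/
theorem ballCountC_h439 : BallCountC := by
  intro V d q hd hreg o r
  rw [ball_eq_h439 hd o q hreg r, Set.ncard_coe_finset, card_ball_h439 hd o q hreg r]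

end Fermat.Agent.LT.T6.H439

end
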