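import Mathlib

/-!
# Row LT, tower T6, leaf T6.20a.8 `RadInt1C626`: the calculus core (helper439, OFF-MAIN)

Mathlib only.  For `Φ` continuous, `Φ = 0` on `(R, ∞)`, and `A, α, β > 0`:

  `∫∫ Φ(√(A² + α x² + β v²)) / (A² + α x²) dv dx = (2π / (A √(αβ))) ∫_{X > A} Φ(X) dX`.

Proof: scaling `x ↦ x/√α`, `v ↦ v/√β`; Fubini; polar coordinates (`integral_comp_polarCoord_symm`);
`∫_{-π}^{π} dθ / (A² + r² cos² θ) = 2π / (A √(A² + r²))` (`t = tan θ`);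
`X = √(A² + r²)`.
-/

set_option autoImplicit false

open MeasureTheory Set Real

noncomputable section

namespace Fermat.Agent.LT.T6.H439

/-! ## The angular integral -/

/-- `∫_ℝ dt / (A² t² + c²) = π / (A c)`. -/
theorem rad_integral_inv439 {A c : ℝ} (hA : 0 < A) (hc : 0 < c) :
    ∫ t : ℝ, (A ^ 2 * t ^ 2 + c ^ 2)⁻¹ = π / (A * c) := by
  have h := Measure.integral_comp_mul_left (fun y : ℝ => (1 + y ^ 2)⁻¹) (A / c)
  rw [integral_univ_inv_one_add_sq] at h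
  have e : ∀ t : ℝ, (A ^ 2 * t ^ 2 + c ^ 2)⁻¹ = (c ^ 2)⁻¹ * (1 + (A / c * t) ^ 2)⁻¹ := by
    intro t
    have : 0 < A ^ 2 * t ^ 2 + c ^ 2 := by positivity
    field_simp
    ring
  simp_rw [e]
  rw [MeasureTheory.integral_const_mul, h, abs_of_pos (by positivity), smul_eq_mul]
  field_simp

/-- `∫_{-π/2}^{π/2} dθ / (A² + r² cos² θ) = π / (A √(A² + r²))`. -/
theorem rad_theta_half439 {A : ℝ} (hA : 0 < A) (r : ℝ) :
    ∫ θ in Ioo (-(π / 2)) (π / 2), (A ^ 2 + r ^ 2 * cos θ ^ 2)⁻¹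
      = π / (A * √(A ^ 2 + r ^ 2)) := by
  have hc : 0 < √(A ^ 2 + r ^ 2) := Real.sqrt_pos.2 (by positivity)
  have h1 := integral_image_eq_integral_abs_deriv_smul (s := Ioo (-(π / 2)) (π / 2))
    (f := tan) (f' := fun θ => 1 / cos θ ^ 2) measurableSet_Ioo
    (fun θ hθ => (Real.hasDerivAt_tan (cos_pos_of_mem_Ioo hθ).ne').hasDerivWithinAt) injOn_tan
    (fun t : ℝ => (A ^ 2 * t ^ 2 + (√(A ^ 2 + r ^ 2)) ^ 2)⁻¹)
  rw [image_tan_Ioo, setIntegral_univ, rad_integral_inv439 hA hc] at h1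
  rw [h1]
  apply setIntegral_congr_fun measurableSet_Ioo
  intro θ hθ
  have hcos : 0 < cos θ := cos_pos_of_mem_Ioo hθ
  simp only [smul_eq_mul]
  rw [Real.sq_sqrt (by positivity), Real.tan_eq_sin_div_cos, abs_of_pos (by positivity)]
  have hs := Real.sin_sq_add_cos_sq θ
  have hs' : sin θ ^ 2 = 1 - cos θ ^ 2 := by linarith
  have h2 : 0 < A ^ 2 + r ^ 2 * cos θ ^ 2 := by positivity
  have h3 : A ^ 2 * (sin θ / cos θ) ^ 2 + (A ^ 2 + r ^ 2)
      = (A ^ 2 + r ^ 2 * cos θ ^ 2) / cos θ ^ 2 := by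
    field_simp
    rw [hs']
    ring
  rw [h3]
  field_simp

/-- `∫_{-π}^{π} dθ / (A² + r² cos² θ) = 2π / (A √(A² + r²))`. -/
theorem rad_theta439 {A : ℝ} (hA : 0 < A) (r : ℝ) :
    ∫ θ in Ioo (-π) π, (A ^ 2 + r ^ 2 * cos θ ^ 2)⁻¹ = 2 * π / (A * √(A ^ 2 + r ^ 2)) := by
  set g : ℝ → ℝ := fun θ => (A ^ 2 + r ^ 2 * cos θ ^ 2)⁻¹ with hg
  have hgc : Continuous g := by
    refine Continuous.inv₀ (by fun_prop) (fun θ => ?_)
    positivity
  have hper : Function.Periodic g π := by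
    intro θ
    simp only [hg, Real.cos_add_pi, neg_sq]
  have hint : ∀ a b : ℝ, IntervalIntegrable g volume a b := fun a b =>
    hgc.intervalIntegrable a b
  have e1 : ∫ θ in Ioo (-π) π, g θ = ∫ θ in (-π)..π, g θ := by
    rw [intervalIntegral.integral_of_le (by linarith [pi_pos]), integral_Ioc_eq_integral_Ioo]
  have e2 : ∫ θ in Ioo (-(π / 2)) (π / 2), g θ = ∫ θ in (-(π / 2))..(π / 2), g θ := by
    rw [intervalIntegral.integral_of_le (by linarith [pi_pos]), integral_Ioc_eq_integral_Ioo]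
  have h3 : ∫ θ in (-π)..π, g θ = (∫ θ in (-π)..0, g θ) + ∫ θ in (0 : ℝ)..π, g θ :=
    (intervalIntegral.integral_add_adjacent_intervals (hint _ _) (hint _ _)).symm
  have h4 : ∫ θ in (-π)..0, g θ = ∫ θ in (-(π / 2))..(π / 2), g θ := by
    have := hper.intervalIntegral_add_eq (-π) (-(π / 2))
    rw [show -π + π = 0 by ring, show -(π / 2) + π = π / 2 by ring] at this
    exact this
  have h5 : ∫ θ in (0 : ℝ)..π, g θ = ∫ θ in (-(π / 2))..(π / 2), g θ := by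
    have := hper.intervalIntegral_add_eq 0 (-(π / 2))
    rw [show (0 : ℝ) + π = π by ring, show -(π / 2) + π = π / 2 by ring] at this
    exact this
  rw [e1, h3, h4, h5, ← e2, rad_theta_half439 hA r]
  ring

/-! ## The radial substitution -/

/-- `∫_{X > A} Φ(X) dX = ∫_{r > 0} (r / √(A² + r²)) Φ(√(A² + r²)) dr`. -/
theorem rad_subst439 {A : ℝ} (hA : 0 < A) (Φ : ℝ → ℂ) :
    ∫ X in Ioi A, Φ X
      = ∫ r in Ioi (0 : ℝ), (r / √(A ^ 2 + r ^ 2)) • Φ (√(A ^ 2 + r ^ 2)) := by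
  have himg : (fun r : ℝ => √(A ^ 2 + r ^ 2)) '' Ioi 0 = Ioi A := by
    ext X
    constructor
    · rintro ⟨r, hr, rfl⟩
      show A < √(A ^ 2 + r ^ 2)
      rw [Real.lt_sqrt hA.le]
      have hr' : (0 : ℝ) < r := hr
      have : 0 < r ^ 2 := by positivity
      linarith
    · intro hX
      have hX' : A < X := hX
      have hpos : 0 < X ^ 2 - A ^ 2 := by nlinarith
      refine ⟨√(X ^ 2 - A ^ 2), Real.sqrt_pos.2 hpos, ?_⟩
      show √(A ^ 2 + √(X ^ 2 - A ^ 2) ^ 2) = X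
      rw [Real.sq_sqrt hpos.le, add_sub_cancel, Real.sqrt_sq (by linarith)]
  have hinj : InjOn (fun r : ℝ => √(A ^ 2 + r ^ 2)) (Ioi 0) := by
    intro r₁ h₁ r₂ h₂ h
    have h' : A ^ 2 + r₁ ^ 2 = A ^ 2 + r₂ ^ 2 := by
      have := congrArg (fun x : ℝ => x ^ 2) h
      simp only at this
      rwa [Real.sq_sqrt (by positivity), Real.sq_sqrt (by positivity)] at this
    have h1 : (0 : ℝ) < r₁ := h₁
    have h2 : (0 : ℝ) < r₂ := h₂
    have h3 : r₁ ^ 2 = r₂ ^ 2 := by linarith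
    have h4 : (r₁ - r₂) * (r₁ + r₂) = 0 := by linear_combination h3
    rcases mul_eq_zero.1 h4 with h5 | h5
    · linarith
    · linarith
  have hder : ∀ r ∈ Ioi (0 : ℝ), HasDerivWithinAt (fun r : ℝ => √(A ^ 2 + r ^ 2))
      (r / √(A ^ 2 + r ^ 2)) (Ioi 0) r := by
    intro r _
    have h0 : A ^ 2 + r ^ 2 ≠ 0 := by positivity
    have h1 : HasDerivAt (fun r : ℝ => A ^ 2 + r ^ 2) (2 * r) r := by
      simpa using ((hasDerivAt_pow 2 r).const_add (A ^ 2))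
    have h2 := h1.sqrt h0
    have e : 2 * r / (2 * √(A ^ 2 + r ^ 2)) = r / √(A ^ 2 + r ^ 2) := by
      rw [mul_div_mul_left _ _ two_ne_zero]
    rw [e] at h2
    exact h2.hasDerivWithinAt
  have h := integral_image_eq_integral_abs_deriv_smul measurableSet_Ioi hder hinj Φ
  rw [himg] at h
  rw [h]
  apply setIntegral_congr_fun measurableSet_Ioi
  intro r hr
  have hr' : (0 : ℝ) < r := hr
  have hs : 0 < √(A ^ 2 + r ^ 2) := Real.sqrt_pos.2 (by positivity)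
  simp only
  rw [abs_of_pos (by positivity)]

/-! ## The integrand on `ℝ²` -/

/-- `F(x, v) = Φ(√(A² + x² + v²)) / (A² + x²)`. -/
def radF439 (Φ : ℝ → ℂ) (A : ℝ) (p : ℝ × ℝ) : ℂ :=
  Φ (√(A ^ 2 + p.1 ^ 2 + p.2 ^ 2)) / ((A ^ 2 + p.1 ^ 2 : ℝ) : ℂ)

/-- The integrand in polar coordinates (with the Jacobian). -/
def radG439 (Φ : ℝ → ℂ) (A : ℝ) (q : ℝ × ℝ) : ℂ :=
  (q.1 • Φ (√(A ^ 2 + q.1 ^ 2))) * (((A ^ 2 + q.1 ^ 2 * cos q.2 ^ 2)⁻¹ : ℝ) : ℂ)

theorem continuous_radF439 {Φ : ℝ → ℂ} (hΦ : Continuous Φ) {A : ℝ} (hA : 0 < A) :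
    Continuous (radF439 Φ A) := by
  unfold radF439
  refine Continuous.div (by fun_prop) (by fun_prop) (fun p => ?_)
  have : 0 < A ^ 2 + p.1 ^ 2 := by positivity
  exact Complex.ofReal_ne_zero.2 this.ne'

theorem rad_sqrt_gt439 {R r y : ℝ} (hr : |R| < |r|) (hy : r ^ 2 ≤ y) : R < √y := by
  have h1 : |r| ≤ √y := by
    rw [← Real.sqrt_sq_eq_abs]
    exact Real.sqrt_le_sqrt hy
  exact lt_of_le_of_lt (le_abs_self R) (lt_of_lt_of_le hr h1)

theorem hasCompactSupport_radF439 {Φ : ℝ → ℂ} {R : ℝ} (hR : ∀ X : ℝ, R < X → Φ X = 0)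
    (A : ℝ) : HasCompactSupport (radF439 Φ A) := by
  refine HasCompactSupport.intro (isCompact_closedBall (0 : ℝ × ℝ) |R|) (fun p hp => ?_)
  rw [Metric.mem_closedBall, dist_zero_right, not_le] at hp
  rw [Prod.norm_def, lt_max_iff, Real.norm_eq_abs, Real.norm_eq_abs] at hp
  unfold radF439
  rcases hp with h | h
  · rw [hR _ (rad_sqrt_gt439 h (by nlinarith [sq_nonneg A, sq_nonneg p.2])), zero_div]
  · rw [hR _ (rad_sqrt_gt439 h (by nlinarith [sq_nonneg A, sq_nonneg p.1])), zero_div]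

theorem integrable_radF439 {Φ : ℝ → ℂ} (hΦ : Continuous Φ) {R : ℝ}
    (hR : ∀ X : ℝ, R < X → Φ X = 0) {A : ℝ} (hA : 0 < A) :
    Integrable (radF439 Φ A) :=
  (continuous_radF439 hΦ hA).integrable_of_hasCompactSupport (hasCompactSupport_radF439 hR A)

theorem radF_polar439 (Φ : ℝ → ℂ) (A : ℝ) (q : ℝ × ℝ) :
    q.1 • radF439 Φ A (polarCoord.symm q) = radG439 Φ A q := by
  rw [polarCoord_symm_apply]
  unfold radF439 radG439
  have e1 : A ^ 2 + (q.1 * cos q.2) ^ 2 + (q.1 * sin q.2) ^ 2 = A ^ 2 + q.1 ^ 2 := by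
    have := Real.sin_sq_add_cos_sq q.2
    linear_combination (q.1 ^ 2) * this
  simp only [e1]
  rw [div_eq_mul_inv, Complex.ofReal_inv, mul_pow, smul_mul_assoc]

theorem continuous_radG439 {Φ : ℝ → ℂ} (hΦ : Continuous Φ) {A : ℝ} (hA : 0 < A) :
    Continuous (radG439 Φ A) := by
  unfold radG439
  have h1 : Continuous (fun q : ℝ × ℝ => (A ^ 2 + q.1 ^ 2 * cos q.2 ^ 2)⁻¹) :=
    Continuous.inv₀ (by fun_prop) (fun q => by positivity)
  have h2 : Continuous (fun q : ℝ × ℝ => Φ (√(A ^ 2 + q.1 ^ 2))) := by fun_prop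
  exact (continuous_fst.smul h2).mul (Complex.continuous_ofReal.comp h1)

theorem integrableOn_radG439 {Φ : ℝ → ℂ} (hΦ : Continuous Φ) {R : ℝ}
    (hR : ∀ X : ℝ, R < X → Φ X = 0) {A : ℝ} (hA : 0 < A) :
    IntegrableOn (radG439 Φ A) (Ioi (0 : ℝ) ×ˢ Ioo (-π) π) := by
  have hK : IsCompact (Icc (0 : ℝ) |R| ×ˢ Icc (-π) π) := isCompact_Icc.prod isCompact_Icc
  have h1 : IntegrableOn (radG439 Φ A) (Icc (0 : ℝ) |R| ×ˢ Icc (-π) π) :=
    (continuous_radG439 hΦ hA).continuousOn.integrableOn_compact hK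
  refine h1.of_forall_sdiff_eq_zero (measurableSet_Ioi.prod measurableSet_Ioo) (fun q hq => ?_)
  obtain ⟨hq1, hq2⟩ := hq
  have hq0 : (0 : ℝ) < q.1 := hq1.1
  have hr : |R| < q.1 := by
    by_contra hcon
    exact hq2 ⟨⟨hq0.le, not_lt.1 hcon⟩, ⟨hq1.2.1.le, hq1.2.2.le⟩⟩
  unfold radG439
  rw [hR _ (rad_sqrt_gt439 (r := q.1) (by rwa [abs_of_pos hq0]) (by nlinarith [sq_nonneg A])),
    smul_zero, zero_mul]

/-! ## The radial integral -/

/-- `∫∫ Φ(√(A² + x² + v²)) / (A² + x²) = (2π / A) ∫_{X > A} Φ`. -/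
theorem rad_main439 {Φ : ℝ → ℂ} (hΦ : Continuous Φ) {R : ℝ}
    (hR : ∀ X : ℝ, R < X → Φ X = 0) {A : ℝ} (hA : 0 < A) :
    ∫ p : ℝ × ℝ, radF439 Φ A p = ((2 * π / A : ℝ) : ℂ) * ∫ X in Ioi A, Φ X := by
  rw [← integral_comp_polarCoord_symm]
  simp_rw [radF_polar439]
  rw [polarCoord_target, Measure.volume_eq_prod,
    setIntegral_prod _ (integrableOn_radG439 hΦ hR hA)]
  have inner : ∀ r ∈ Ioi (0 : ℝ), ∫ θ in Ioo (-π) π, radG439 Φ A (r, θ)
      = ((2 * π / A : ℝ) : ℂ) * ((r / √(A ^ 2 + r ^ 2)) • Φ (√(A ^ 2 + r ^ 2))) := by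
    intro r _
    unfold radG439
    simp only
    have hθ : ∫ θ in Ioo (-π) π, (((A ^ 2 + r ^ 2 * cos θ ^ 2)⁻¹ : ℝ) : ℂ)
        = ((2 * π / (A * √(A ^ 2 + r ^ 2)) : ℝ) : ℂ) := by
      rw [← rad_theta439 hA r]
      exact integral_ofReal
    rw [MeasureTheory.integral_const_mul, hθ]
    have hs : 0 < √(A ^ 2 + r ^ 2) := Real.sqrt_pos.2 (by positivity)
    have hs' : ((√(A ^ 2 + r ^ 2) : ℝ) : ℂ) ≠ 0 := Complex.ofReal_ne_zero.2 hs.ne'
    have hA' : ((A : ℝ) : ℂ) ≠ 0 := Complex.ofReal_ne_zero.2 hA.ne'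
    simp only [Complex.real_smul]
    push_cast
    field_simp
  rw [setIntegral_congr_fun measurableSet_Ioi inner, MeasureTheory.integral_const_mul,
    ← rad_subst439 hA Φ]

/-- Scaling of the two variables. -/
theorem rad_scale439 (F : ℝ × ℝ → ℂ) (hF : Integrable F) {a b : ℝ} (ha : 0 < a) (hb : 0 < b) :
    ∫ x : ℝ, ∫ v : ℝ, F (a * x, b * v) = ((1 / (a * b) : ℝ) : ℂ) * ∫ p : ℝ × ℝ, F p := by
  have h1 : ∀ x : ℝ, ∫ v : ℝ, F (a * x, b * v) = |b⁻¹| • ∫ v : ℝ, F (a * x, v) := fun x =>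
    Measure.integral_comp_mul_left (fun v => F (a * x, v)) b
  simp_rw [h1]
  rw [integral_smul]
  have h2 := Measure.integral_comp_mul_left (fun x => ∫ v : ℝ, F (x, v)) a
  rw [h2, Measure.volume_eq_prod, integral_prod F hF, abs_of_pos (inv_pos.2 ha),
    abs_of_pos (inv_pos.2 hb), smul_smul, Complex.real_smul]
  congr 2
  field_simp

/-- **The radial integral with weight `1 / (A² + α x²)`** (the statement of `RadInt1C626`). -/
theorem radInt1_core439 (Φ : ℝ → ℂ) (hΦ : Continuous Φ)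
    (hR : ∃ R : ℝ, ∀ X : ℝ, R < X → Φ X = 0) (A α β : ℝ) (hA : 0 < A) (hα : 0 < α)
    (hβ : 0 < β) :
    (∫ x : ℝ, ∫ v : ℝ, Φ (Real.sqrt (A ^ 2 + α * x ^ 2 + β * v ^ 2)) /
          ((A ^ 2 + α * x ^ 2 : ℝ) : ℂ))
        = ((2 * Real.pi / (A * Real.sqrt (α * β)) : ℝ) : ℂ) * ∫ X in Set.Ioi A, Φ X := by
  obtain ⟨R, hR⟩ := hR
  have e : ∀ x v : ℝ, Φ (√(A ^ 2 + α * x ^ 2 + β * v ^ 2)) / ((A ^ 2 + α * x ^ 2 : ℝ) : ℂ)
      = radF439 Φ A (√α * x, √β * v) := by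
    intro x v
    unfold radF439
    simp only [mul_pow, Real.sq_sqrt hα.le, Real.sq_sqrt hβ.le]
  simp_rw [e]
  rw [rad_scale439 _ (integrable_radF439 hΦ hR hA) (Real.sqrt_pos.2 hα) (Real.sqrt_pos.2 hβ),
    rad_main439 hΦ hR hA, ← mul_assoc, ← Complex.ofReal_mul]
  congr 2
  rw [Real.sqrt_mul hα.le]
  field_simp

end Fermat.Agent.LT.T6.H439

end
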