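import Mathlib
import Fermat.Agent.LT.T6.H626.AbelCut
import Fermat.Agent.LT.T6.H439.RadInt1Core

/-!
# Row LT, tower T6, leaf T6.20a.8 `RadInt1C626` (helper439, OFF-MAIN)

`radInt1C_h439 : H626.RadInt1C626`, VERBATIM against `LT/T6/H626/AbelCut.lean`
(helper626@f2abbd58e, sha256 6a4d529b62b20077).  The proof is `radInt1_core439` of
`RadInt1Core.lean` (Mathlib only): scaling, Fubini, polar coordinates, the angular integral
`∫_{-π}^{π} dθ / (A² + r² cos² θ) = 2π / (A √(A² + r²))`, and `X = √(A² + r²)`.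
-/

set_option autoImplicit false

noncomputable section

namespace Fermat.Agent.LT.T6.H439

/-- **T6.20a.8 `RadInt1C626`** (VERBATIM). -/
theorem radInt1C_h439 : Fermat.Agent.LT.T6.H626.RadInt1C626 :=
  fun Φ hΦ hR A α β hA hα hβ => radInt1_core439 Φ hΦ hR A α β hA hα hβ

end Fermat.Agent.LT.T6.H439

end
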